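import Fermat.Agent.Faltings.Hermite
import Mathlib.FieldTheory.PolynomialGaloisGroup
import Mathlib.FieldTheory.PrimitiveElement
import Mathlib.RingTheory.Discriminant

/-!
# The discriminant of a Galois closure

A field `K` of degree `n` has a Galois closure `M` of degree at most `n!`.  If an element of an
inertia group of `M` moves one of the embeddings of `K`, two columns of the matrix of conjugates of
an integral basis agree modulo the prime, so the prime divides the square `d_K` of its determinant;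
hence only primes dividing `d_K` ramify in `M` and `|d_M| ≤ (n! |d_K|)^(n!)`.
-/

set_option autoImplicit false
set_option linter.unusedSectionVars false
set_option linter.style.haveILetI false

noncomputable section

universe u v

open NumberField Module Polynomial
open scoped Classical

namespace FA.BSDegree

local notation "Qb" => AlgebraicClosure ℚ

variable (K : Type u) [Field K] [NumberField K] {M : Type} [Field M] [NumberField M]
  [IsGalois ℚ M]

/-- An automorphism in the inertia group at a prime away from `d_K` fixes every image of `K`. -/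
theorem comp_eq_of_inertia (hlift : ∀ (ι : M →ₐ[ℚ] Qb) (g : K →ₐ[ℚ] Qb),
      ∃ h : K →ₐ[ℚ] M, ι.comp h = g) {P : Ideal (𝓞 M)} (hP : ((discr K : ℤ) : 𝓞 M) ∉ P)
    (τ : M ≃ₐ[ℚ] M) (hτ : ∀ x : 𝓞 M, τ • x - x ∈ P) (σ : K →ₐ[ℚ] M) :
    τ.toAlgHom.comp σ = σ := by
  by_contra hne
  let ι : M →ₐ[ℚ] Qb := IsAlgClosed.lift
  have hι : Function.Injective ι := ι.injective
  let idx := Free.ChooseBasisIndex ℤ (𝓞 K)
  have hcard : Fintype.card idx = Fintype.card (K →ₐ[ℚ] Qb) := by
    rw [AlgHom.card, Module.finrank_eq_card_basis (integralBasis K)]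
  let e : idx ≃ (K →ₐ[ℚ] Qb) := Fintype.equivOfCardEq hcard
  choose h hh using fun j => hlift ι (e j)
  have hj : ∀ ρ : K →ₐ[ℚ] M, h (e.symm (ι.comp ρ)) = ρ := fun ρ => AlgHom.ext fun x => hι (by
    have := DFunLike.congr_fun (hh (e.symm (ι.comp ρ))) x
    rwa [e.apply_symm_apply, AlgHom.comp_apply, AlgHom.comp_apply] at this)
  let A : Matrix idx idx (𝓞 M) := Matrix.of fun i j =>
    ⟨h j (integralBasis K i), by
      rw [integralBasis_apply]
      exact map_isIntegral_int (h j) (RingOfIntegers.isIntegral_coe _)⟩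
  let f : 𝓞 M →+* Qb := ι.toRingHom.comp (algebraMap (𝓞 M) M)
  have hf : Function.Injective f := fun a b hab => RingOfIntegers.coe_injective (hι hab)
  have hdet : ((discr K : ℤ) : 𝓞 M) = A.det ^ 2 := by
    refine hf ?_
    have hmat : A.map f = Algebra.embeddingsMatrixReindex ℚ Qb (integralBasis K) e := by
      ext i j
      exact DFunLike.congr_fun (hh j) (integralBasis K i)
    have h1 := Algebra.discr_eq_det_embeddingsMatrixReindex_pow_two ℚ Qb (integralBasis K) e
    rw [← NumberField.coe_discr, ← hmat] at h1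
    rw [map_intCast, map_pow, RingHom.map_det, RingHom.mapMatrix_apply, ← h1, map_intCast]
  refine hP ?_
  rw [hdet, ← Ideal.Quotient.eq_zero_iff_mem, map_pow, RingHom.map_det,
    Matrix.det_zero_of_column_eq (i := e.symm (ι.comp (τ.toAlgHom.comp σ)))
      (j := e.symm (ι.comp σ)) ?_ ?_, zero_pow two_ne_zero]
  · intro hij
    refine hne ?_
    rw [← hj (τ.toAlgHom.comp σ), hij, hj]
  · intro i
    refine Ideal.Quotient.eq.2 ?_
    set x := A i (e.symm (ι.comp σ))
    have heq : A i (e.symm (ι.comp (τ.toAlgHom.comp σ))) = τ • x := by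
      refine RingOfIntegers.coe_injective ?_
      show h (e.symm (ι.comp (τ.toAlgHom.comp σ))) (integralBasis K i) = ((τ • x : 𝓞 M) : M)
      rw [show ((τ • x : 𝓞 M) : M) = τ (x : M) from algebraMap.coe_smul' τ x M, hj]
      show τ (σ (integralBasis K i)) = τ (h (e.symm (ι.comp σ)) (integralBasis K i))
      rw [hj]
    rw [heq]
    exact hτ x

/-- Trivial inertia is unramified. -/
theorem isUnramifiedAt_of_inertia {q : ℕ} (hq : q.Prime) (P : Ideal (𝓞 M)) [P.IsMaximal]
    (hqP : (q : 𝓞 M) ∈ P) (hinert : ∀ τ : M ≃ₐ[ℚ] M, (∀ x : 𝓞 M, τ • x - x ∈ P) → τ = 1) :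
    Algebra.IsUnramifiedAt ℤ P := by
  have := IsGaloisGroup.of_isFractionRing (M ≃ₐ[ℚ] M) ℤ (𝓞 M) ℚ M
  let pI : Ideal ℤ := Ideal.span {(q : ℤ)}
  have hpI : pI.IsMaximal := PrincipalIdealRing.isMaximal_of_irreducible
    (Nat.prime_iff_prime_int.mp hq).irreducible
  have hover : P.LiesOver pI := by
    refine ⟨hpI.eq_of_le (Ideal.IsPrime.ne_top') ?_⟩
    rw [Ideal.span_le, Set.singleton_subset_iff, SetLike.mem_coe, Ideal.mem_comap]
    simpa using hqP
  have : Finite pI.ResidueField := by
    have : Finite (ℤ ⧸ pI) := by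
      have : NeZero q := ⟨hq.ne_zero⟩
      exact Finite.of_equiv (ZMod q) (Int.quotientSpanNatEquivZMod q).symm.toEquiv
    exact Finite.of_surjective _ pI.bijective_algebraMap_quotient_residueField.2
  have hcard : Nat.card (P.inertia (M ≃ₐ[ℚ] M)) = 1 := by
    rw [(Subgroup.eq_bot_iff_forall _).mpr fun σ (hσ : σ ∈ P.inertia (M ≃ₐ[ℚ] M)) => hinert σ hσ,
      Subgroup.card_bot]
  rwa [Ideal.card_inertia_eq_ramificationIdxIn pI P,
    Ideal.ramificationIdxIn_eq_ramificationIdx pI P (M ≃ₐ[ℚ] M),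
    Ideal.ramificationIdx_eq_one_iff] at hcard

omit [Field M] [NumberField M] [IsGalois ℚ M] in
/-- **The Galois closure**, embedded in every Galois field containing `K`. -/
theorem exists_galois_closure_embedding :
    ∃ (M : Type) (_ : Field M) (_ : NumberField M) (_ : Algebra K M), IsGalois ℚ M ∧ IsGalois K M ∧
      finrank ℚ M ≤ (finrank ℚ K).factorial ∧
      (discr M).natAbs ≤ ((finrank ℚ K).factorial * (discr K).natAbs) ^ (finrank ℚ K).factorial ∧
      ∀ (N : Type v) [Field N] [NumberField N] [IsGalois ℚ N] [Algebra K N],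
        Nonempty (M →ₐ[ℚ] N) := by
  obtain ⟨α, hα⟩ := Field.exists_primitive_element ℚ K
  have hint : IsIntegral ℚ α := Algebra.IsIntegral.isIntegral α
  set p := minpoly ℚ α
  have hp : p.natDegree = finrank ℚ K :=
    (Field.primitive_element_iff_minpoly_natDegree_eq ℚ α).1 hα
  have hsep : p.Separable := (minpoly.irreducible hint).separable
  set n := finrank ℚ K
  let M := p.SplittingField
  haveI : NumberField M := NumberField.mk
  haveI : IsSplittingField ℚ M p := by
    convert IsSplittingField.splittingField p using 1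
    exact Subsingleton.elim _ _
  haveI : IsGalois ℚ M := IsGalois.of_separable_splitting_field hsep
  haveI : Fact ((p.map (algebraMap ℚ M)).Splits) := ⟨IsSplittingField.splits M p⟩
  have hdeg : finrank ℚ M ≤ n.factorial := by
    rw [← Polynomial.Gal.card_of_separable hsep]
    refine (Nat.card_le_card_of_injective _ (Polynomial.Gal.galActionHom_injective p M)).trans ?_
    rw [Nat.card_eq_fintype_card, Fintype.card_perm]
    refine Nat.factorial_le ?_
    rw [card_rootSet_eq_natDegree hsep (IsSplittingField.splits M p), hp]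
  have htop : Algebra.adjoin ℚ ({α} : Set K) = ⊤ := by
    rw [← IntermediateField.adjoin_simple_toSubalgebra_of_isAlgebraic hint.isAlgebraic, hα,
      IntermediateField.top_toSubalgebra]
  let pb := PowerBasis.ofAdjoinEqTop' hint htop
  have hroot : ∀ (E : Type) [Field E] [Algebra ℚ E] (r : E), aeval r p = 0 →
      ∃ g : K →ₐ[ℚ] E, g α = r := fun E _ _ r hr => by
    have hgen : pb.gen = α := PowerBasis.ofAdjoinEqTop'_gen hint htop
    have hr' : aeval r (minpoly ℚ pb.gen) = 0 := by rwa [hgen]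
    exact ⟨pb.lift r hr', hgen ▸ PowerBasis.lift_gen pb r hr'⟩
  have hext : ∀ (E : Type) [Field E] [Algebra ℚ E] (g g' : K →ₐ[ℚ] E), g α = g' α → g = g' :=
    fun E _ _ g g' h =>
      AlgHom.ext_of_adjoin_eq_top htop fun x hx => by rw [Set.mem_singleton_iff.1 hx, h]
  have hlift : ∀ (ι : M →ₐ[ℚ] Qb) (g : K →ₐ[ℚ] Qb), ∃ h : K →ₐ[ℚ] M, ι.comp h = g :=
      fun ι g => by
    have hmem : g α ∈ p.rootSet Qb := mem_rootSet.2
      ⟨minpoly.ne_zero hint, by rw [aeval_algHom_apply, minpoly.aeval, map_zero]⟩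
    rw [← (IsSplittingField.splits M p).image_rootSet ι] at hmem
    obtain ⟨r, hr, hrg⟩ := hmem
    obtain ⟨h, hh⟩ := hroot M r (mem_rootSet.1 hr).2
    exact ⟨h, hext Qb _ _ ((congrArg ι hh).trans hrg)⟩
  obtain ⟨ι0, -⟩ : ∃ g : K →ₐ[ℚ] Qb, True := ⟨IsAlgClosed.lift, trivial⟩
  obtain ⟨iK, -⟩ := hlift IsAlgClosed.lift ι0
  letI : Algebra K M := iK.toRingHom.toAlgebra
  haveI : IsScalarTower ℚ K M := IsScalarTower.of_algebraMap_eq fun q => (iK.commutes q).symm
  refine ⟨M, inferInstance, inferInstance, inferInstance, inferInstance,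
    IsGalois.tower_top_of_isGalois ℚ K M, hdeg, ?_, fun N _ _ _ _ => ?_⟩
  rotate_left
  · set i : K →ₐ[ℚ] N := (algebraMap K N).toRatAlgHom
    have h := Normal.splits (F := ℚ) (K := N) inferInstance (i α)
    rw [minpoly.algHom_eq i i.injective] at h
    exact ⟨IsSplittingField.lift M p h⟩
  set d := (discr K).natAbs
  have hd : 0 < d := Int.natAbs_pos.2 (discr_ne_zero K)
  have hun : ∀ (q : ℕ) (P : Ideal (𝓞 M)) [P.IsMaximal], q.Prime → q ∉ d.primeFactors →
      (q : 𝓞 M) ∈ P → Algebra.IsUnramifiedAt ℤ P := fun q P _ hq hqd hqP => by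
    refine isUnramifiedAt_of_inertia hq P hqP fun τ hτ => ?_
    have hdP : ((discr K : ℤ) : 𝓞 M) ∉ P := fun hmem => by
      have hcop : IsCoprime (q : ℤ) (discr K) := Int.isCoprime_iff_gcd_eq_one.2 (by
        rw [Int.gcd_eq_natAbs, Int.natAbs_natCast]
        exact (Nat.Prime.coprime_iff_not_dvd hq).2 fun hdvd =>
          hqd (Nat.mem_primeFactors.2 ⟨hq, hdvd, hd.ne'⟩))
      obtain ⟨a, b, hab⟩ := hcop
      refine Ideal.IsMaximal.ne_top (inferInstance : P.IsMaximal) ((Ideal.eq_top_iff_one P).2 ?_)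
      have h1 : ((a * q + b * discr K : ℤ) : 𝓞 M) ∈ P := by
        push_cast
        exact P.add_mem (P.mul_mem_left _ hqP) (P.mul_mem_left _ hmem)
      simpa [hab] using h1
    have hfix : ∀ r ∈ p.rootSet M, τ.toAlgHom r = (AlgHom.id ℚ M) r := fun r hr => by
      obtain ⟨σ, hσ⟩ := hroot M r (mem_rootSet.1 hr).2
      rw [← hσ]
      exact DFunLike.congr_fun (comp_eq_of_inertia K hlift hdP τ hτ σ) α
    exact AlgEquiv.ext fun x =>
      DFunLike.congr_fun (AlgHom.ext_of_adjoin_eq_top (IsSplittingField.adjoin_rootSet M p) hfix) x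
  refine (FA.Faltings.natAbs_discr_le (K := M) (fun q hq => Nat.prime_of_mem_primeFactors hq) hun).trans ?_
  exact (Nat.pow_le_pow_left (Nat.mul_le_mul hdeg (Nat.le_of_dvd hd (Nat.prod_primeFactors_dvd d))) _).trans
    (Nat.pow_le_pow_right (Nat.mul_pos (Nat.factorial_pos n) hd) hdeg)

omit [Field M] [NumberField M] [IsGalois ℚ M] in
/-- The Galois closure, without the embedding. -/
theorem exists_galois_closure :
    ∃ (M : Type) (_ : Field M) (_ : NumberField M) (_ : Algebra K M), IsGalois ℚ M ∧ IsGalois K M ∧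
      finrank ℚ M ≤ (finrank ℚ K).factorial ∧
      (discr M).natAbs ≤ ((finrank ℚ K).factorial * (discr K).natAbs) ^ (finrank ℚ K).factorial := by
  obtain ⟨M, _, _, _, h1, h2, h3, h4, -⟩ := exists_galois_closure_embedding.{u, 0} K
  exact ⟨M, _, _, _, h1, h2, h3, h4⟩

end FA.BSDegree
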