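import Fermat.Agent.BrauerSiegelDegree.NormalClosure
import Fermat.Agent.HeckeBS.Main
import Fermat.Agent.CMFiniteness.Main

/-!
# The theorem of Brauer and Siegel in every degree

The lower bound for the Galois closure `M` of `K` descends along the entire quotient of the
completed zeta functions, as `|d_M|` is at most a power of `|d_K|`.
-/

set_option autoImplicit false
set_option linter.style.haveILetI false

noncomputable section

universe u

open NumberField Module
open FA.HeckeBS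
open scoped Real Classical

namespace FA.BSDegree

/-- **The lower bound in degree `n`.** -/
theorem exists_hR_lower (n : ℕ) {ε : ℝ} (hε : 0 < ε) :
    ∃ c > 0, ∀ (K : Type u) [Field K] [NumberField K], finrank ℚ K = n →
      c * |((discr K : ℤ) : ℝ)| ^ (1 / 2 - ε) ≤ hR K := by
  set N := n.factorial
  have hN : (1 : ℝ) ≤ N := Nat.one_le_cast.2 (Nat.factorial_pos n)
  set η := min (ε / (2 * N)) (1 / 4)
  have hη : 0 < η := lt_min (by positivity) (by norm_num)
  have hη4 : η ≤ 1 / 4 := min_le_right _ _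
  have hηN : η * (2 * N) ≤ ε := (le_div_iff₀ (by positivity)).1 (min_le_left _ _)
  choose c hc hlow using fun m => exists_hR_lower_galois.{0} m hη
  set c₀ := (Finset.range (N + 1)).inf' ⟨0, Finset.mem_range.2 (by omega)⟩ c
  have hc₀ : 0 < c₀ := (Finset.lt_inf'_iff _).2 fun m _ => hc m
  set b := 1 + 2 * η
  set W : ℝ := 2 * (N : ℝ) ^ 2 + 1
  set E := edgeConst N b
  have hE : 0 < E := edgeConst_pos N (by linarith)
  set C : ℝ := (N : ℝ) ^ N
  have hC : 0 < C := by positivity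
  refine ⟨c₀ * C ^ (-(2 * η)) / (2 ^ n * W * E), by positivity, fun K _ _ hK => ?_⟩
  obtain ⟨M, _, _, _, _, _, hdeg, hd⟩ := exists_galois_closure K
  rw [hK] at hdeg hd
  have hM := hlow (finrank ℚ M) M rfl
  have hle : c₀ ≤ c (finrank ℚ M) := Finset.inf'_le _ (Finset.mem_range.2 (by omega))
  have hup := polarR_le_mul K M (b := b) (by linarith) (by linarith)
  set dK := |((discr K : ℤ) : ℝ)| with hdK
  set dM := |((discr M : ℤ) : ℝ)| with hdM
  have hK1 : 1 ≤ dK := one_le_absR K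
  have hM1 : 1 ≤ dM := one_le_absR M
  have hK0 : 0 < dK := zero_lt_one.trans_le hK1
  have hM0 : 0 < dM := zero_lt_one.trans_le hM1
  have hq : 0 ≤ (dM / dK) ^ (b / 2) := Real.rpow_nonneg (by positivity) _
  have h1 : c₀ * dM ^ (1 / 2 - η) ≤ W * ((dM / dK) ^ (b / 2) * E * (2 ^ n * hR K)) := by
    refine ((mul_le_mul_of_nonneg_right hle (Real.rpow_nonneg hM0.le _)).trans
      (hM.trans (hR_le_polarR M hdeg))).trans (mul_le_mul_of_nonneg_left (hup.trans ?_) (by positivity))
    have hh : polarR K ≤ 2 ^ n * hR K := hK ▸ polarR_le_hR K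
    exact mul_le_mul (mul_le_mul_of_nonneg_left (edgeConst_mono (by linarith) hdeg) hq) hh
      (polarR_pos K).le (mul_nonneg hq hE.le)
  have h2 : c₀ * (dK ^ (b / 2) * dM ^ (-(2 * η))) ≤ 2 ^ n * W * E * hR K := by
    rw [Real.div_rpow hM0.le hK0.le] at h1
    have hMb : 0 < dM ^ (b / 2) := Real.rpow_pos_of_pos hM0 _
    have hKb : 0 < dK ^ (b / 2) := Real.rpow_pos_of_pos hK0 _
    rw [show -(2 * η) = (1 / 2 - η) - b / 2 by simp only [b]; ring, Real.rpow_sub hM0]
    have h3 := mul_le_mul_of_nonneg_right h1 (div_nonneg hKb.le hMb.le)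
    refine le_of_eq_of_le ?_ (h3.trans_eq ?_) <;> field_simp
  have h4 : C ^ (-(2 * η)) * dK ^ (1 / 2 - ε) ≤ dK ^ (b / 2) * dM ^ (-(2 * η)) := by
    have h5 : dM ≤ C * dK ^ (N : ℝ) := by
      have hd' : (((discr M).natAbs : ℕ) : ℝ) ≤ (((N * (discr K).natAbs) ^ N : ℕ) : ℝ) := Nat.cast_le.2 hd
      push_cast at hd'
      rw [hdM, hdK, Real.rpow_natCast, ← mul_pow]
      simpa using hd'
    refine le_trans ?_ (mul_le_mul_of_nonneg_left
      (Real.rpow_le_rpow_of_nonpos hM0 h5 (by linarith)) (Real.rpow_nonneg hK0.le _))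
    rw [Real.mul_rpow hC.le (Real.rpow_nonneg hK0.le _), ← Real.rpow_mul hK0.le, mul_left_comm,
      ← Real.rpow_add hK0]
    refine mul_le_mul_of_nonneg_left (Real.rpow_le_rpow_of_exponent_le hK1 ?_) (Real.rpow_nonneg hC.le _)
    simp only [b]
    nlinarith
  rw [div_mul_eq_mul_div, div_le_iff₀ (by positivity), mul_assoc c₀, mul_comm (hR K)]
  exact (mul_le_mul_of_nonneg_left h4 hc₀.le).trans h2

/-- **The asymptotic form.** -/
theorem exists_log_hR_div (n : ℕ) {ε : ℝ} (hε : 0 < ε) :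
    ∃ D : ℝ, ∀ (F : Type u) [Field F] [NumberField F], finrank ℚ F = n →
      D < |((discr F : ℤ) : ℝ)| →
      |Real.log (hR F) / Real.log (Real.sqrt |((discr F : ℤ) : ℝ)|) - 1| < ε := by
  obtain ⟨c, hc, hlo⟩ := exists_hR_lower.{u} n (show 0 < ε / 4 by linarith)
  obtain ⟨C, hC, hup⟩ := exists_hR_upper.{u} n (show 0 < ε / 4 by linarith)
  set B := |Real.log c| + |Real.log C| + 1 with hB
  refine ⟨Real.exp (4 * B / ε), fun F _ _ hF hD => ?_⟩
  set d := |((discr F : ℤ) : ℝ)|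
  have hd : 0 < d := (Real.exp_pos _).trans hD
  have hL : 4 * B / ε < Real.log d := (Real.lt_log_iff_exp_lt hd).2 hD
  have hB1 : 1 ≤ B := le_add_of_nonneg_left (by positivity)
  have hL' : 4 * B < ε * Real.log d := by rw [div_lt_iff₀ hε] at hL; linarith
  have hL0 : 0 < Real.log d := lt_trans (by positivity) hL
  have h1 := Real.log_le_log (mul_pos hc (Real.rpow_pos_of_pos hd _)) (hlo F hF)
  have h2 := Real.log_le_log (hR_pos F) (hup F hF)
  rw [Real.log_mul hc.ne' (Real.rpow_pos_of_pos hd _).ne', Real.log_rpow hd] at h1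
  rw [Real.log_mul hC.ne' (Real.rpow_pos_of_pos hd _).ne', Real.log_rpow hd] at h2
  rw [Real.log_sqrt hd.le, div_sub_one (by linarith), abs_div,
    abs_of_pos (half_pos hL0), div_lt_iff₀ (half_pos hL0), abs_lt]
  have := neg_abs_le (Real.log c)
  have := le_abs_self (Real.log C)
  have := abs_nonneg (Real.log c)
  have := abs_nonneg (Real.log C)
  constructor <;> nlinarith

/-- **CM fields of degree `n`.** -/
theorem exists_cm_discr_bound (n B : ℕ) :
    ∃ D : ℕ, ∀ (F : Type u) [Field F] [NumberField F] [IsCMField F],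
      finrank ℚ F = n → classNumber F ≤ B * classNumber (maximalRealSubfield F) →
      (discr F).natAbs ≤ D := by
  obtain ⟨c, hc, hlo⟩ := exists_hR_lower.{u} n (show (0 : ℝ) < 1 / 12 by norm_num)
  obtain ⟨C, hC, hup⟩ := exists_hR_upper.{u} (n / 2) (show (0 : ℝ) < 1 / 12 by norm_num)
  obtain ⟨D, hD⟩ := exists_nat_ge (((B : ℝ) * 2 ^ n * C / c) ^ (8 : ℝ))
  refine ⟨D, fun F _ _ _ hn hB => Nat.cast_le.1 (le_trans ?_ hD)⟩
  set d : ℝ := ((discr F).natAbs : ℝ)
  set Fp := maximalRealSubfield F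
  have hcast : ∀ z : ℤ, |(z : ℝ)| = (z.natAbs : ℝ) := fun z => by
    rw [← Int.cast_abs, ← Int.natCast_natAbs, Int.cast_natCast]
  have hd1 : 1 ≤ d := Nat.one_le_cast.2 (Int.natAbs_pos.2 (discr_ne_zero F))
  have h1 := hlo F hn
  have h2 := hup Fp (by rw [← hn, FA.CMFinite.finrank_eq_two_mul F, Nat.mul_div_cancel_left _ two_pos])
  rw [hcast] at h1 h2
  have h3 : (((discr Fp).natAbs : ℕ) : ℝ) ^ (1 / 2 + 1 / 12 : ℝ) ≤ d ^ (7 / 24 : ℝ) := by
    have h4 : (((discr Fp).natAbs : ℕ) : ℝ) ^ 2 ≤ d := by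
      show _ ≤ (((discr F).natAbs : ℕ) : ℝ)
      exact_mod_cast FA.CMFinite.natAbs_discr_plus_sq_le F
    refine le_trans (le_of_eq ?_) (Real.rpow_le_rpow (sq_nonneg _) h4 (by norm_num))
    rw [← Real.rpow_natCast _ 2, ← Real.rpow_mul (Nat.cast_nonneg _)]
    norm_num
  have hchain : c * d ^ (1 / 2 - 1 / 12 : ℝ) ≤ B * 2 ^ n * C * d ^ (7 / 24 : ℝ) := by
    have h5 := FA.CMFinite.hR_le_plus F hB
    rw [hn] at h5
    refine h1.trans (h5.trans ((mul_le_mul_of_nonneg_left
      (h2.trans (mul_le_mul_of_nonneg_left h3 hC.le)) (by positivity)).trans (le_of_eq (by ring))))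
  have hd0 : 0 < d := zero_lt_one.trans_le hd1
  have h6 : d ^ (1 / 8 : ℝ) ≤ B * 2 ^ n * C / c := by
    rw [le_div_iff₀ hc]
    refine le_of_mul_le_mul_right ?_ (Real.rpow_pos_of_pos hd0 (7 / 24 : ℝ))
    refine le_trans (le_of_eq ?_) hchain
    rw [mul_right_comm, ← Real.rpow_add hd0, mul_comm]
    norm_num
  calc d = (d ^ (1 / 8 : ℝ)) ^ (8 : ℝ) := by
        rw [← Real.rpow_mul hd0.le]; norm_num
    _ ≤ _ := Real.rpow_le_rpow (Real.rpow_nonneg hd0.le _) h6 (by norm_num)

/-- The same in all degrees up to `n`. -/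
theorem exists_cm_discr_bound_le (n B : ℕ) :
    ∃ D : ℕ, ∀ (F : Type u) [Field F] [NumberField F] [IsCMField F],
      finrank ℚ F ≤ n → classNumber F ≤ B * classNumber (maximalRealSubfield F) →
      (discr F).natAbs ≤ D := by
  choose D hD using fun m => exists_cm_discr_bound.{u} m B
  refine ⟨(Finset.range (n + 1)).sup D, fun F _ _ _ hn hB =>
    (hD _ F rfl hB).trans (Finset.le_sup (Finset.mem_range.2 (by omega)))⟩

end FA.BSDegree
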